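import Fermat.Agent.QuarticTwins.Points
import Fermat.Agent.FunctionFieldRank.Descent
import Fermat.Agent.Frob.VarChange
import Mathlib.LinearAlgebra.LinearIndependent.Basic

/-!
# A square root of `-1` doubles the rank

If `i` is not in `F` then `(x, y) ↦ (-x, i y)` keeps a point of `y² = x³ - N x` over `F` only when
`y = 0`, and such a point is killed by two.
-/

set_option autoImplicit false
set_option linter.unusedSectionVars false
set_option linter.style.haveILetI false

noncomputable section

open WeierstrassCurve
open FA.FunctionFieldRank (pointMap pointMap_some pointMap_injective)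
open scoped Classical

namespace FA.QuarticTwins

variable {K : Type*} [Field K] [CharZero K]

/-- The change of variables `(x, y) ↦ (-x, i y)`. -/
def rootChange {r : K} (hr : r ≠ 0) : VariableChange K :=
  ⟨Units.mk0 (-r) (neg_ne_zero.2 hr), 0, 0, 0⟩

theorem rootChange_smul {r : K} (hr : r ≠ 0) (h2 : r ^ 2 = -1) (N : K) :
    rootChange hr • quarticCurve N = quarticCurve N := by
  have h : r ^ 4 = 1 := by linear_combination (r ^ 2 - 1) * h2
  ext <;> simp [rootChange, quarticCurve, variableChange_a₁, variableChange_a₂,
    variableChange_a₃, variableChange_a₄, variableChange_a₆,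
    Even.neg_pow (by decide : Even 4), h]

/-- **Independent points and their rotations are independent.** -/
theorem linearIndependent_rotated {F : Type*} [Field F] (g : F →+* K) {r : K}
    (hr : r ^ 2 = -1) (hmem : ∀ a : F, g a ≠ r) {N : F} (hN : N ≠ 0) {n : ℕ}
    (P : Fin n → (quarticCurve N).toAffine.Point) (hP : LinearIndependent ℤ P) :
    ∃ Q : Fin n ⊕ Fin n → (quarticCurve (g N)).toAffine.Point, LinearIndependent ℤ Q ∧
      ∀ i, Q (.inl i) = pointMap g (quarticCurve_map g N) (P i) := by
  haveI := isElliptic_quarticCurve ((map_ne_zero g).2 hN)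
  have hr0 : r ≠ 0 := fun h => by simp [h] at hr
  let ι : (quarticCurve N).toAffine.Point →+ (quarticCurve (g N)).toAffine.Point :=
    pointMap g (quarticCurve_map g N)
  let Ω : (quarticCurve (g N)).toAffine.Point →+ (quarticCurve (g N)).toAffine.Point :=
    (FA.Frob.vcEquiv (rootChange hr0) (rootChange_smul hr0 hr (g N))).toAddMonoidHom
  have hinj : Function.Injective ι := pointMap_injective g _
  have hΩsome : ∀ {x y : K} (h : (quarticCurve (g N)).toAffine.Nonsingular x y),
      ∃ h', Ω (.some x y h) = .some (-x) (r * y) h' := fun {x y} h => by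
    have h₁ : FA.Frob.vcX (rootChange hr0) x = -x := by
      simp only [FA.Frob.vcX, rootChange, Units.val_mk0, add_zero]
      linear_combination x * hr
    have h₂ : FA.Frob.vcY (rootChange hr0) x y = r * y := by
      simp only [FA.Frob.vcY, rootChange, Units.val_mk0, add_zero, zero_mul]
      linear_combination -(r * y) * hr
    have key : ∀ {P : (quarticCurve (g N)).toAffine.Point} {u v : K}
        (h' : (quarticCurve (g N)).toAffine.Nonsingular u v), P = .some u v h' →
        u = -x → v = r * y → ∃ h'', P = .some (-x) (r * y) h'' := by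
      rintro P u v h' e rfl rfl
      exact ⟨h', e⟩
    exact key _ (FA.Frob.vcEquiv_some _ _ h) h₁ h₂
  refine ⟨Sum.elim (fun i => ι (P i)) (fun i => Ω (ι (P i))), ?_, fun i => rfl⟩
  rw [Fintype.linearIndependent_iff]
  intro c hc
  rw [Fintype.sum_sum_type] at hc
  simp only [Sum.elim_inl, Sum.elim_inr, ← map_zsmul, ← map_sum] at hc
  set A := ∑ i, c (.inl i) • P i with hA
  set B := ∑ i, c (.inr i) • P i with hB
  have hc' : ι A + Ω (ι B) = 0 := hc
  have hB0 : B = 0 := by
    by_contra hne
    obtain ⟨x, y, h, hBe⟩ : ∃ x y h, B = .some x y h := by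
      rcases hB' : B with _ | ⟨x, y, h⟩
      exacts [absurd hB' hne, ⟨x, y, h, rfl⟩]
    obtain ⟨h', e'⟩ := hΩsome (x := g x) (y := g y)
      (quarticCurve_map g N ▸ ((quarticCurve N).toAffine.map_nonsingular g.injective x y).2 h)
    rw [hBe, show ι (.some x y h) = _ from pointMap_some g _ h, e'] at hc'
    have hAeq := eq_neg_of_add_eq_zero_left hc'
    rw [Affine.Point.neg_some] at hAeq
    rcases hA' : A with _ | ⟨x', y', h''⟩
    · rw [hA', ← Affine.Point.zero_def, map_zero] at hAeq
      exact Affine.Point.some_ne_zero _ hAeq.symm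
    rw [hA', show ι (.some x' y' h'') = _ from pointMap_some g _ h'', Affine.Point.some.injEq] at hAeq
    have hy : y = 0 := by
      by_contra hy
      have e := hAeq.2
      simp [Affine.negY, quarticCurve] at e
      exact hmem (-y' / y) (by
        rw [map_div₀, map_neg, e, neg_neg, mul_div_assoc,
          div_self ((_root_.map_ne_zero g).2 hy), mul_one])
    subst hy
    have h2 : (2 : ℤ) • B = 0 := by
      rw [two_zsmul, hBe, add_eq_zero_iff_eq_neg, Affine.Point.neg_some, Affine.Point.some.injEq]
      exact ⟨rfl, by simp [Affine.negY, quarticCurve]⟩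
    have hall : ∀ i, 2 * c (.inr i) = 0 := by
      refine Fintype.linearIndependent_iff.1 hP _ ?_
      simp only [mul_zsmul, ← Finset.smul_sum]
      exact h2
    refine hne ?_
    rw [hB]
    refine Finset.sum_eq_zero fun i _ => ?_
    have h0 : c (Sum.inr i) = 0 := by linarith [hall i]
    rw [h0, zero_smul]
  rw [hB0, map_zero, map_zero, add_zero] at hc'
  have hA0 : A = 0 := hinj (hc'.trans (map_zero ι).symm)
  rintro (i | i)
  · exact Fintype.linearIndependent_iff.1 hP _ hA0 i
  · exact Fintype.linearIndependent_iff.1 hP _ hB0 i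

end FA.QuarticTwins
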