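import Fermat.Agent.QuarticTwins.Independent
import Fermat.Agent.QuarticTwins.Rotation
import Fermat.Agent.MordellCubes.Families
import Fermat.Agent.Hilbertian.Irreducibility
import Fermat.Agent.Twists.KroneckerChar
import Mathlib.FieldTheory.PrimitiveElement
import Mathlib.NumberTheory.NumberField.Basic

/-!
# Infinitely many curves of rank at least four over `ℚ`, eight with a square root of `-1`

The constant of the family has infinitely many square classes, also over a number field, because
only finitely many rational square classes become trivial there.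
-/

set_option autoImplicit false
set_option linter.unusedSectionVars false
set_option linter.style.haveILetI false

noncomputable section

open WeierstrassCurve Polynomial
open FA.FunctionFieldRank (pointMap)
open Fermat.Agent.Hilbertian
open scoped Classical IntermediateField

namespace FA.QuarticTwins

attribute [local instance 2000] FA.MestreRank.ratDecEq

theorem famN_intCast (t : ℤ) : ((famN t : ℤ) : ℚ) = famN (t : ℚ) := by
  rw [← eq_intCast (Int.castRingHom ℚ), map_famN, eq_intCast]

/-- No constant multiple of the constant of the family is a square. -/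
theorem famN_not_const_square {d : ℚ} (hd : d ≠ 0) : ¬IsSquare (C d * famN (X : ℚ[X])) := by
  intro h
  have hev : ∀ t : ℤ, IsSquare (d * famN (t : ℚ)) := fun t => by
    have := h.map (evalRingHom (t : ℚ))
    rwa [map_mul, map_famN, coe_evalRingHom, eval_C, eval_X] at this
  have hsq : IsSquare ((famN (3 : ℤ) * famN (2 : ℤ) : ℤ) : ℚ) := by
    obtain ⟨a, ha⟩ := hev 3
    obtain ⟨b, hb⟩ := hev 2
    refine ⟨a * b / d, ?_⟩
    rw [Int.cast_mul, famN_intCast, famN_intCast]
    field_simp
    linear_combination (d * famN ((2 : ℤ) : ℚ)) * ha + (a * a) * hb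
  obtain ⟨r, hr⟩ := Rat.isSquare_intCast_iff.1 hsq
  have h11 := congrArg (Int.cast : ℤ → ZMod 11) hr
  rw [show famN (3 : ℤ) * famN (2 : ℤ) = 33511156029712 * 635318657 by decide +kernel] at h11
  push_cast at h11
  revert h11
  generalize (r : ZMod 11) = z
  revert z
  decide +kernel

/-- **Good parameters avoid any finitely many square classes.** -/
theorem exists_parameter (D : Finset ℚ) (hD : ∀ d ∈ D, d ≠ 0) :
    ∃ t : ℤ, (t : ℚ) ∉ exceptional ∧ ∀ d ∈ D, ¬IsSquare (d * famN (t : ℚ)) := by
  by_contra hno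
  push Not at hno
  have hd : DensityZero (⋃ d ∈ D, {t : ℤ | IsSquare ((C d * famN (X : ℚ[X])).eval (t : ℚ))}) :=
    densityZero_biUnion _ fun d hd => by_contra fun h =>
      famN_not_const_square (hD d hd) (isSquare_of_square_values h)
  have hx : DensityZero {t : ℤ | (t : ℚ) ∈ exceptional} :=
    densityZero_of_finite (finite_exceptional.preimage Int.cast_injective.injOn)
  have hall : DensityZero (Set.univ : Set ℤ) := (hx.union hd).mono fun t _ => by
    by_cases ht : (t : ℚ) ∈ exceptional
    · exact Or.inl ht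
    obtain ⟨d, hd, hsq⟩ := hno t ht
    refine Or.inr (Set.mem_biUnion hd ?_)
    show IsSquare _
    rwa [eval_mul, eval_C, ← coe_evalRingHom, map_famN, coe_evalRingHom, eval_X]
  obtain ⟨n, hn⟩ := hall.infinite_nat.nonempty
  exact hn trivial

variable {K : Type*} [Field K] [NumberField K]

/-- The parameters at which everything works. -/
def Good (t : ℤ) : Prop := (t : ℚ) ∉ exceptional

theorem Good.ne {t : ℤ} (h : Good t) : famN (t : ℚ) ≠ 0 := (not_not.1 h).1

/-- **An infinite sequence of good parameters with curves pairwise non-isomorphic over `K`.** -/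
theorem exists_sequence :
    ∃ t : ℕ → ℤ, (∀ i, Good (t i)) ∧ ∀ i j, i ≠ j → ∀ u : K, u ≠ 0 →
      (famN (t i) : ℤ) ≠ u ^ 4 * ((famN (t j) : ℤ) : K) := by
  let r : ℤ → ℤ → Prop := fun x y => ∀ u : K, u ≠ 0 →
    ((famN x : ℤ) : K) ≠ u ^ 4 * ((famN y : ℤ) : K)
  haveI : Std.Symm r := ⟨fun x y h u hu e => h u⁻¹ (inv_ne_zero hu) (by
    rw [e, ← mul_assoc, ← mul_pow, inv_mul_cancel₀ hu, one_pow, one_mul])⟩
  obtain ⟨t, ht, hpair⟩ := exists_seq_of_forall_finset_exists' Good r (fun s hs => by
    obtain ⟨y, hy, hcl⟩ := exists_parameter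
      (((FA.MordellCubes.finite_squarefree_squares (K := K)).toFinset ×ˢ s).image
        fun p : ℤ × ℤ => (p.1 : ℚ) * famN (p.2 : ℚ)) (by
      intro d hd
      obtain ⟨⟨a, x⟩, hax, rfl⟩ := Finset.mem_image.1 hd
      rw [Finset.mem_product, Set.Finite.mem_toFinset] at hax
      exact mul_ne_zero (Int.cast_ne_zero.2 hax.1.1.ne_zero) (hs x hax.2).ne)
    refine ⟨y, hy, fun x hx u hu e => ?_⟩
    obtain ⟨D, c, hD, hc, hq⟩ :=
      FA.Twists.exists_squarefree_mul_sq (mul_ne_zero (hs x hx).ne (Good.ne hy))
    have hcK : algebraMap ℚ K c ≠ 0 := (_root_.map_ne_zero _).2 hc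
    have hmem : D ∈ (FA.MordellCubes.finite_squarefree_squares (K := K)).toFinset := by
      rw [Set.Finite.mem_toFinset]
      refine ⟨hD, u ^ 2 * ((famN y : ℤ) : K) / algebraMap ℚ K c, ?_⟩
      have hqK := congrArg (algebraMap ℚ K) hq
      rw [map_mul, map_mul, map_pow, ← famN_intCast, ← famN_intCast, map_intCast, map_intCast,
        map_intCast, e] at hqK
      rw [div_pow, div_eq_iff (pow_ne_zero 2 hcK)]
      linear_combination hqK
    refine hcl _ (Finset.mem_image.2 ⟨(D, x), Finset.mem_product.2 ⟨hmem, hx⟩, rfl⟩)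
      ⟨(D : ℚ) * c, ?_⟩
    linear_combination (D : ℚ) * hq)
  exact ⟨t, ht, fun i j hij => hpair hij⟩

theorem eq_of_variableChange {a b : K} {C : VariableChange K}
    (h : C • quarticCurve a = quarticCurve b) : a = (C.u : K) ^ 4 * b := by
  have := congrArg WeierstrassCurve.c₄ h
  rw [variableChange_c₄, quarticCurve_c₄, quarticCurve_c₄, Units.val_inv_eq_inv_val] at this
  have hu : (C.u : K) ≠ 0 := C.u.ne_zero
  field_simp at this
  linear_combination this

/-- **Infinitely many `y² = x³ - k x` of rank at least four over `ℚ`.** -/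
theorem infinite_rank_four :
    ∃ k : ℕ → ℤ, (∀ i, k i ≠ 0 ∧ ∃ P : Fin 4 → (quarticCurve (k i : ℚ)).toAffine.Point,
        LinearIndependent ℤ P) ∧
      ∀ i j, i ≠ j → ∀ C : VariableChange ℚ,
        C • quarticCurve (k i : ℚ) ≠ quarticCurve (k j : ℚ) := by
  obtain ⟨t, ht, hne⟩ := exists_sequence (K := ℚ)
  refine ⟨fun i => famN (t i), fun i => ?_, fun i j hij C hC =>
    hne i j hij _ C.u.ne_zero (eq_of_variableChange hC)⟩
  obtain ⟨hk, hli⟩ := not_not.1 (ht i)
  refine ⟨fun h => hk ?_, ?_⟩
  · rw [← famN_intCast]; simp only at h; rw [h, Int.cast_zero]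
  · simp only
    rw [famN_intCast]
    exact ⟨_, hli⟩

/-- **Infinitely many `y² = x³ - k x` of rank at least eight over `K` containing a square
root of `-1`.** -/
theorem infinite_rank_eight {r : K} (hr : r ^ 2 = -1) :
    ∃ k : ℕ → ℤ, (∀ i, k i ≠ 0 ∧ ∃ P : Fin 8 → (quarticCurve (k i : K)).toAffine.Point,
        LinearIndependent ℤ P) ∧
      ∀ i j, i ≠ j → ∀ C : VariableChange K,
        C • quarticCurve (k i : K) ≠ quarticCurve (k j : K) := by
  obtain ⟨t, ht, hne⟩ := exists_sequence (K := K)
  refine ⟨fun i => famN (t i), fun i => ?_, fun i j hij C hC =>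
    hne i j hij _ C.u.ne_zero (eq_of_variableChange hC)⟩
  obtain ⟨hk, hli⟩ := not_not.1 (ht i)
  refine ⟨fun h => hk ?_, ?_⟩
  · rw [← famN_intCast]; simp only at h; rw [h, Int.cast_zero]
  · have hmem : ∀ a : ℚ, algebraMap ℚ K a ≠ r := fun a ha => by
      have : a ^ 2 = -1 := (algebraMap ℚ K).injective (by
        rw [map_pow, map_neg, map_one, ha, hr])
      nlinarith [sq_nonneg a]
    obtain ⟨Q, hQ, -⟩ := linearIndependent_rotated (algebraMap ℚ K) hr hmem hk (famPoint hk) hli
    simp only
    have hcast : ((famN (t i) : ℤ) : K) = algebraMap ℚ K (famN ((t i : ℤ) : ℚ)) := by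
      rw [← famN_intCast, map_intCast]
    rw [hcast]
    exact ⟨fun j : Fin 8 => Q ((finSumFinEquiv (m := 4) (n := 4)).symm j),
      hQ.comp _ (finSumFinEquiv (m := 4) (n := 4)).symm.injective⟩

end FA.QuarticTwins
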