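import Fermat.Agent.QuarticTwins.Points
import Fermat.Agent.MestreRank.Classes
import Fermat.Agent.LangNeron.Silverman

/-!
# The four points are independent for all but finitely many values of the parameter

At `t = 2` the quadratic characters at `13, 19, 31, 43` separate the four points and `(0, 0)`, the
only point of order two. So the four are independent over `ℚ(T)`, and by Silverman's theorem at
almost every fibre.
-/

set_option autoImplicit false
set_option linter.unusedSectionVars false
set_option linter.style.haveILetI false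

noncomputable section

open WeierstrassCurve Polynomial
open FA.NeronSpecialisation (genW fibreW specW)
open FA.MestreRank (intCurve ratDecEq bit exists_classHom)
open scoped Classical

namespace FA.QuarticTwins

attribute [local instance 2000] ratDecEq

/-- Elements whose classes modulo two are independent together with the class of the one element
of order two are independent. -/
theorem linearIndependent_of_classes_two {G : Type*} [AddCommGroup G] {ι κ : Type*} [Fintype ι]
    [Fintype κ] (T : G) (hT : 2 • T = 0) (h2 : ∀ x : G, 2 • x = 0 → x = 0 ∨ x = T)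
    (P : ι → G) (φ : κ → (G →+ ZMod 2)) (U : ι → κ → ZMod 2) (V : κ → ZMod 2)
    (hU : ∀ i j, ∑ k, U i k * φ k (P j) = if i = j then 1 else 0)
    (hUT : ∀ i, ∑ k, U i k * φ k T = 0) (hVP : ∀ j, ∑ k, V k * φ k (P j) = 0)
    (hVT : ∑ k, V k * φ k T = 1) : LinearIndependent ℤ P := by
  have key : ∀ (n : ℕ) (c : ι → ℤ) (e : ℤ), ∑ j, c j • P j + e • T = 0 →
      ∀ i, (2 : ℤ) ^ n ∣ c i := fun n => by
    induction n with
    | zero => exact fun c e _ i => by simp
    | succ n ih =>
      intro c e hc i
      have h : ∀ k, ∑ j, (c j : ZMod 2) * φ k (P j) + (e : ZMod 2) * φ k T = 0 := fun k => by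
        have := congrArg (φ k) hc
        simpa [map_sum, zsmul_eq_mul] using this
      have hpair : ∀ u : κ → ZMod 2, ∑ j, (c j : ZMod 2) * (∑ k, u k * φ k (P j)) +
          (e : ZMod 2) * ∑ k, u k * φ k T = 0 := fun u => by
        calc _ = ∑ k, u k * (∑ j, (c j : ZMod 2) * φ k (P j) + (e : ZMod 2) * φ k T) := by
              simp_rw [mul_add, Finset.mul_sum, Finset.sum_add_distrib]
              rw [Finset.sum_comm]
              simp_rw [mul_left_comm]
          _ = 0 := by simp [h]
      have he : ∀ i, (2 : ℤ) ∣ c i := fun i => by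
        refine (ZMod.intCast_zmod_eq_zero_iff_dvd _ 2).1 ?_
        simpa [hU, hUT] using hpair (U i)
      have he' : (2 : ℤ) ∣ e := by
        refine (ZMod.intCast_zmod_eq_zero_iff_dvd _ 2).1 ?_
        simpa [hVP, hVT] using hpair V
      choose d hd using he
      obtain ⟨e', rfl⟩ := he'
      have hhalf : 2 • (∑ j, d j • P j) = 0 := by
        have hTz : (2 * e') • T = 0 := by
          rw [mul_comm, mul_zsmul, show (2 : ℤ) • T = 0 by rw [← hT, ← natCast_zsmul]; rfl, zsmul_zero]
        rw [hTz, add_zero] at hc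
        rw [← natCast_zsmul, Finset.smul_sum, ← hc]
        exact Finset.sum_congr rfl fun j _ => by rw [hd j, mul_zsmul]; rfl
      rw [hd i, pow_succ']
      refine mul_dvd_mul_left 2 ?_
      rcases h2 _ hhalf with e | e
      · exact ih d 0 (by rw [e, zero_zsmul, add_zero]) i
      · exact ih d (-1) (by rw [e, neg_one_zsmul, add_neg_cancel]) i
  rw [Fintype.linearIndependent_iff]
  intro c hc i
  by_contra h0
  have h := Int.natAbs_dvd_natAbs.2 (key (c i).natAbs c 0 (by rw [zero_zsmul, add_zero, hc]) i)
  rw [Int.natAbs_pow] at h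
  exact (Nat.lt_two_pow_self).not_ge (Nat.le_of_dvd (Int.natAbs_pos.2 h0) h)

/-- Independence only depends on the coordinates. -/
theorem linearIndependent_of_coords {F : Type*} [Field F] {W W' : WeierstrassCurve F}
    (e : W = W') {ι : Type*} {P : ι → W.toAffine.Point} {P' : ι → W'.toAffine.Point} {x y : ι → F}
    (hP : ∀ i, ∃ h, P i = .some (x i) (y i) h) (hP' : ∀ i, ∃ h, P' i = .some (x i) (y i) h)
    (hli : LinearIndependent ℤ P) : LinearIndependent ℤ P' := by
  subst e
  rwa [show P' = P from funext fun i => by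
    obtain ⟨h, e₁⟩ := hP i
    obtain ⟨h', e₂⟩ := hP' i
    rw [e₁, e₂]]

/-- The four points at a parameter. -/
def famPoint {F : Type*} [Field F] [CharZero F] {t : F} (hN : famN t ≠ 0) (i : Fin 4) :
    (quarticCurve (famN t)).toAffine.Point :=
  .some _ _ (nonsingular_of_eq hN (fam_equation t i))

section AtTwo

instance fact_prime_thirteen' : Fact (Nat.Prime 13) := ⟨by norm_num⟩
instance fact_prime_nineteen' : Fact (Nat.Prime 19) := ⟨by norm_num⟩
instance fact_prime_thirtyone' : Fact (Nat.Prime 31) := ⟨by norm_num⟩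
instance fact_prime_fortythree' : Fact (Nat.Prime 43) := ⟨by norm_num⟩

/-- The coefficient at `2`. -/
def baseN : ℤ := famN 2
/-- The abscissae at `2`, and that of the point of order two. -/
def baseX : Fin 5 → ℤ := Fin.snoc (famX 2) 0
/-- The ordinates at `2`, and that of the point of order two. -/
def baseY : Fin 5 → ℤ := Fin.snoc (famY 2) 0

theorem baseN_eq : baseN = 635318657 := by decide +kernel

theorem base_eq (i : Fin 5) : baseY i ^ 2 = baseX i ^ 3 - baseN * baseX i := by
  revert i; decide +kernel

instance base_isElliptic : (intCurve 0 (-baseN) 0).IsElliptic :=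
  (WeierstrassCurve.isElliptic_iff _).2 (isUnit_iff_ne_zero.2 (by
    rw [baseN_eq]
    norm_num [intCurve, WeierstrassCurve.Δ, WeierstrassCurve.b₂, WeierstrassCurve.b₄,
      WeierstrassCurve.b₆, WeierstrassCurve.b₈]))

theorem base_equation (i : Fin 5) : (intCurve 0 (-baseN) 0).toAffine.Equation
    ((baseX i : ℚ) / ((1 : ℤ) : ℚ) ^ 2) (baseY i : ℚ) := by
  have h : ((baseY i ^ 2 : ℤ) : ℚ) = ((baseX i ^ 3 - baseN * baseX i : ℤ) : ℚ) :=
    congrArg _ (base_eq i)
  push_cast at h
  rw [Affine.equation_iff]
  simp only [Int.cast_zero, Int.cast_one, one_pow, div_one, Int.cast_neg]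
  linear_combination h

/-- The points at `2`. -/
def basePoint (i : Fin 5) : (intCurve 0 (-baseN) 0).toAffine.Point :=
  .some _ _ (Affine.equation_iff_nonsingular.mp (base_equation i))

/-- The table of characters. -/
def charTable : Matrix (Fin 5) (Fin 5) (ZMod 2) :=
  !![0, 1, 1, 0, 1; 0, 1, 0, 1, 1; 1, 1, 0, 0, 1; 0, 1, 0, 1, 0; 1, 0, 1, 1, 1]

/-- Its inverse. -/
def charInv : Matrix (Fin 5) (Fin 5) (ZMod 2) :=
  !![1, 0, 0, 1, 1; 1, 1, 1, 0, 1; 0, 0, 1, 1, 1; 1, 1, 1, 1, 1; 0, 1, 0, 1, 0]

theorem charInv_mul (i j : Fin 5) :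
    ∑ k, charInv i k * charTable k j = if i = j then 1 else 0 := by
  revert i j
  decide +kernel

theorem base_classAt {p : ℕ} [Fact p.Prime] (hp : p ≠ 2) (θ : ZMod p) (k : Fin 5)
    (h₁ : θ ^ 3 + ((0 : ℤ) : ZMod p) * θ ^ 2 + ((-baseN : ℤ) : ZMod p) * θ +
      ((0 : ℤ) : ZMod p) = 0)
    (h₂ : 3 * θ ^ 2 + 2 * ((0 : ℤ) : ZMod p) * θ + ((-baseN : ℤ) : ZMod p) ≠ 0)
    (h₃ : ∀ i, (baseX i : ZMod p) - θ * ((1 : ℤ) : ZMod p) ^ 2 ≠ 0 ∧
      bit ((baseX i : ZMod p) - θ * ((1 : ℤ) : ZMod p) ^ 2) = charTable k i) :
    ∃ φ : (intCurve 0 (-baseN) 0).toAffine.Point →+ ZMod 2,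
      ∀ i, φ (basePoint i) = charTable k i := by
  obtain ⟨φ, hφ⟩ := exists_classHom hp h₁ h₂
  exact ⟨φ, fun i => (hφ _ 1 _ _ (by norm_num) (h₃ i).1).trans (h₃ i).2⟩

theorem base_classes (k : Fin 5) : ∃ φ : (intCurve 0 (-baseN) 0).toAffine.Point →+ ZMod 2,
    ∀ i, φ (basePoint i) = charTable k i := by
  fin_cases k
  · exact base_classAt (p := 13) (by norm_num) 5 0 (by decide +kernel) (by decide +kernel)
      (by unfold bit; decide +kernel)
  · exact base_classAt (p := 19) (by norm_num) 1 1 (by decide +kernel) (by decide +kernel)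
      (by unfold bit; decide +kernel)
  · exact base_classAt (p := 31) (by norm_num) 10 2 (by decide +kernel) (by decide +kernel)
      (by unfold bit; decide +kernel)
  · exact base_classAt (p := 43) (by norm_num) 8 3 (by decide +kernel) (by decide +kernel)
      (by unfold bit; decide +kernel)
  · exact base_classAt (p := 43) (by norm_num) 35 4 (by decide +kernel) (by decide +kernel)
      (by unfold bit; decide +kernel)

theorem not_isSquare_baseN : ¬IsSquare (baseN : ℚ) := by
  rw [Rat.isSquare_intCast_iff, baseN_eq]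
  rintro ⟨r, hr⟩
  have h5 := congrArg (Int.cast : ℤ → ZMod 5) hr
  push_cast at h5
  revert h5
  generalize (r : ZMod 5) = z
  revert z
  decide +kernel

theorem base_two_torsion (P : (intCurve 0 (-baseN) 0).toAffine.Point) (h : 2 • P = 0) :
    P = 0 ∨ P = basePoint 4 := by
  rcases P with _ | ⟨x, y, hP⟩
  · exact Or.inl rfl
  refine Or.inr ?_
  rw [two_nsmul, add_eq_zero_iff_eq_neg, Affine.Point.neg_some, Affine.Point.some.injEq] at h
  have hy : y = 0 := by
    have := h.2
    simp [Affine.negY] at this
    linarith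
  have he := (Affine.equation_iff x y).1 hP.1
  subst hy
  simp at he
  have hx : x = 0 := by
    by_contra hx
    exact not_isSquare_baseN ⟨x, mul_left_cancel₀ hx (by linear_combination he)⟩
  subst hx
  simp only [basePoint, Affine.Point.some.injEq]
  exact ⟨by norm_num [baseX, Fin.snoc], by norm_num [baseY, Fin.snoc]⟩

theorem basePoint_four_two : 2 • basePoint 4 = 0 := by
  rw [two_nsmul, add_eq_zero_iff_eq_neg]
  simp only [basePoint, Affine.Point.neg_some, Affine.Point.some.injEq]
  exact ⟨trivial, by norm_num [Affine.negY, baseY, Fin.snoc]⟩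

theorem linearIndependent_basePoint :
    LinearIndependent ℤ fun i : Fin 4 => basePoint i.castSucc := by
  choose φ hφ using base_classes
  refine linearIndependent_of_classes_two (basePoint 4) basePoint_four_two base_two_torsion _ φ
    (fun i => charInv i.castSucc) (charInv 4) (fun i j => ?_) (fun i => ?_) (fun j => ?_) ?_
  · simp only [hφ, charInv_mul, Fin.castSucc_inj]
    by_cases h : i = j <;> simp [h]
  · simp only [hφ, charInv_mul]
    exact if_neg (Fin.castSucc_lt_last i).ne
  · simp only [hφ, charInv_mul]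
    exact if_neg (Fin.castSucc_lt_last j).ne'
  · simp only [hφ, charInv_mul, if_true]

theorem famN_two_ne : famN (2 : ℚ) ≠ 0 := by norm_num [famN, eulA, eulB]

theorem baseN_cast : (baseN : ℚ) = famN 2 := by
  rw [baseN, ← eq_intCast (Int.castRingHom ℚ), map_famN, map_ofNat]

/-- **Independence at `2`.** -/
theorem linearIndependent_at_two : LinearIndependent ℤ (famPoint famN_two_ne) := by
  refine linearIndependent_of_coords (x := famX (2 : ℚ)) (y := famY (2 : ℚ)) ?_ (fun i => ?_)
    (fun i => ⟨_, rfl⟩) linearIndependent_basePoint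
  · ext <;> simp [quarticCurve, baseN_cast]
  · have hx : (baseX i.castSucc : ℚ) / ((1 : ℤ) : ℚ) ^ 2 = famX (2 : ℚ) i := by
      rw [baseX, Fin.snoc_castSucc, ← eq_intCast (Int.castRingHom ℚ), map_famX, map_ofNat,
        Int.cast_one, one_pow, div_one]
    have hy : (baseY i.castSucc : ℚ) = famY (2 : ℚ) i := by
      rw [baseY, Fin.snoc_castSucc, ← eq_intCast (Int.castRingHom ℚ), map_famY, map_ofNat]
    exact ⟨hx ▸ hy ▸ Affine.equation_iff_nonsingular.mp (base_equation i.castSucc), by
      simp only [basePoint, Affine.Point.some.injEq]; exact ⟨hx, hy⟩⟩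

end AtTwo

/-- The equation over `ℚ[T]`. -/
def twinFamily : WeierstrassCurve ℚ[X] := quarticCurve (famN X)

theorem famN_generic_ne : famN (algebraMap ℚ[X] (RatFunc ℚ) X) ≠ 0 := by
  rw [← map_famN]
  refine RatFunc.algebraMap_ne_zero fun h => famN_two_ne ?_
  have := congrArg (evalRingHom (2 : ℚ)) h
  rwa [map_famN, map_zero, coe_evalRingHom, eval_X] at this

theorem genW_twinFamily :
    genW twinFamily = quarticCurve (famN (algebraMap ℚ[X] (RatFunc ℚ) X)) := by
  rw [genW, twinFamily, quarticCurve_map, map_famN]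

theorem fibreW_twinFamily (t : ℚ) : fibreW twinFamily t = quarticCurve (famN t) := by
  rw [fibreW, twinFamily, quarticCurve_map, map_famN, coe_evalRingHom, eval_X]

theorem fibre_two_Δ : (fibreW twinFamily 2).Δ ≠ 0 := by
  rw [fibreW_twinFamily, quarticCurve_Δ]
  exact mul_ne_zero (by norm_num) (pow_ne_zero 3 famN_two_ne)

theorem twinFamily_Δ : twinFamily.Δ ≠ 0 := fun h => by
  have := congrArg (evalRingHom (2 : ℚ)) h
  rw [← WeierstrassCurve.map_Δ, map_zero] at this
  exact fibre_two_Δ this

theorem gen_nonsingular (i : Fin 4) : (genW twinFamily).toAffine.Nonsingular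
    (algebraMap ℚ[X] (RatFunc ℚ) (famX X i)) (algebraMap ℚ[X] (RatFunc ℚ) (famY X i)) := by
  rw [genW_twinFamily, map_famX, map_famY]
  exact nonsingular_of_eq famN_generic_ne (fam_equation _ i)

/-- The four sections. -/
def genPoint (i : Fin 4) : (genW twinFamily).toAffine.Point := .some _ _ (gen_nonsingular i)

theorem famN_ne_of_fibre {t : ℚ} (ht : (fibreW twinFamily t).Δ ≠ 0) : famN t ≠ 0 := fun h => ht (by
  rw [fibreW_twinFamily, quarticCurve_Δ, h]; ring)

theorem specW_genPoint {t : ℚ} (ht : (fibreW twinFamily t).Δ ≠ 0) (i : Fin 4) :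
    ∃ h, specW twinFamily ht (genPoint i) = .some (famX t i) (famY t i) h := by
  obtain ⟨hy, h', e⟩ := FA.NeronSpecialisation.specW_some_of_mem ht (gen_nonsingular i)
    (FA.NeronSpecialisation.algebraMap_mem_valueRing t _)
  have hx₀ : ∀ (p : ℚ[X]) (hp : algebraMap ℚ[X] (RatFunc ℚ) p ∈ FA.NeronSpecialisation.valueRing t),
      FA.NeronSpecialisation.valueAt t ⟨_, hp⟩ = p.eval t := fun p hp =>
    FA.NeronSpecialisation.valueAt_algebraMap t p
  have ex : (famX (X : ℚ[X]) i).eval t = famX t i := by
    rw [← coe_evalRingHom, map_famX, coe_evalRingHom, eval_X]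
  have ey : (famY (X : ℚ[X]) i).eval t = famY t i := by
    rw [← coe_evalRingHom, map_famY, coe_evalRingHom, eval_X]
  have key : ∀ {P : (fibreW twinFamily t).toAffine.Point} {u v : ℚ}
      (h'' : (fibreW twinFamily t).toAffine.Nonsingular u v), P = .some u v h'' →
      u = famX t i → v = famY t i → ∃ h, P = .some (famX t i) (famY t i) h := by
    rintro P u v h'' e' rfl rfl
    exact ⟨h'', e'⟩
  exact key h' e ((hx₀ _ _).trans ex) ((hx₀ _ hy).trans ey)

/-- **The four sections are independent over `ℚ(T)`.** -/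
theorem linearIndependent_genPoint : LinearIndependent ℤ genPoint := by
  refine LinearIndependent.of_comp (specW twinFamily fibre_two_Δ).toIntLinearMap ?_
  exact linearIndependent_of_coords (fibreW_twinFamily 2).symm (fun i => ⟨_, rfl⟩)
    (fun i => specW_genPoint fibre_two_Δ i) linearIndependent_at_two

/-- The parameters at which the four points are not independent. -/
def exceptional : Set ℚ :=
  {t | ¬∃ hN : famN t ≠ 0, LinearIndependent ℤ (famPoint hN)}

/-- **All but finitely many parameters give four independent points.** -/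
theorem finite_exceptional : exceptional.Finite := by
  refine (FA.LangNeron.finite_bad_parameters (K := ℚ) twinFamily_Δ).subset ?_
  intro t ht hgood
  obtain ⟨h0, hinj⟩ := hgood
  refine ht ⟨famN_ne_of_fibre h0, linearIndependent_of_coords (fibreW_twinFamily t)
    (fun i => specW_genPoint h0 i) (fun i => ⟨_, rfl⟩) ?_⟩
  exact linearIndependent_genPoint.map' (specW twinFamily h0).toIntLinearMap
    (LinearMap.ker_eq_bot.2 hinj)

end FA.QuarticTwins
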