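import Mathlib.AlgebraicGeometry.EllipticCurve.VariableChange
import Mathlib.AlgebraicGeometry.EllipticCurve.Affine.Point
import Mathlib.Data.Fin.VecNotation
import Mathlib.Tactic.LinearCombination
import Mathlib.Tactic.FinCases

/-!
# Points on `y² = x³ - N x` from two representations of `N` as a sum of two fourth powers

If `N = a⁴ + b⁴ = c⁴ + d⁴` the abscissae `-a², -b², -c², -d²` give points. For Euler's solution in
a parameter `N = D (D + S²)` as well, and the point `(-D, D S)` replaces the last of the four,
which is dependent on the others modulo two.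
-/

set_option autoImplicit false
set_option linter.unusedSectionVars false
set_option linter.style.haveILetI false

open WeierstrassCurve

namespace FA.QuarticTwins

variable {R S : Type*} [CommRing R] [CommRing S]

/-- `y² = x³ - N x`. -/
def quarticCurve (N : R) : WeierstrassCurve R := ⟨0, 0, 0, -N, 0⟩

theorem quarticCurve_map (f : R →+* S) (N : R) : (quarticCurve N).map f = quarticCurve (f N) := by
  ext <;> simp [quarticCurve, WeierstrassCurve.map]

theorem quarticCurve_Δ (N : R) : (quarticCurve N).Δ = 64 * N ^ 3 := by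
  simp [quarticCurve, WeierstrassCurve.Δ, WeierstrassCurve.b₂, WeierstrassCurve.b₄,
    WeierstrassCurve.b₆, WeierstrassCurve.b₈]
  ring

theorem quarticCurve_c₄ (N : R) : (quarticCurve N).c₄ = 48 * N := by
  simp [quarticCurve, WeierstrassCurve.c₄, WeierstrassCurve.b₂, WeierstrassCurve.b₄]
  ring

/-- A representation as a sum of two fourth powers gives two points. -/
theorem twin_equation {a b N : R} (h : a ^ 4 + b ^ 4 = N) :
    (a * b ^ 2) ^ 2 = (-a ^ 2) ^ 3 - N * (-a ^ 2) ∧
      (b * a ^ 2) ^ 2 = (-b ^ 2) ^ 3 - N * (-b ^ 2) :=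
  ⟨by linear_combination a ^ 2 * h.symm * (-1), by linear_combination b ^ 2 * h.symm * (-1)⟩

/-- A factorisation with difference a square gives a point. -/
theorem factor_equation {D W N : R} (h : D * (D + W ^ 2) = N) :
    (D * W) ^ 2 = (-D) ^ 3 - N * (-D) := by
  linear_combination D * h

/-- Euler's first number. -/
def eulA (t : R) : R := t ^ 7 + t ^ 5 - 2 * t ^ 3 + 3 * t ^ 2 + t
/-- Euler's second number. -/
def eulB (t : R) : R := t ^ 6 - 3 * t ^ 5 - 2 * t ^ 4 + t ^ 2 + 1
/-- Euler's third number. -/
def eulC (t : R) : R := t ^ 7 + t ^ 5 - 2 * t ^ 3 - 3 * t ^ 2 + t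
/-- Euler's fourth number. -/
def eulD (t : R) : R := t ^ 6 + 3 * t ^ 5 - 2 * t ^ 4 + t ^ 2 + 1
/-- The smaller factor of `N`. -/
def eulE (t : R) : R := t ^ 12 + 2 * t ^ 10 - 15 * t ^ 8 + 40 * t ^ 6 - 15 * t ^ 4 + 2 * t ^ 2 + 1
/-- The square root of the difference of the factors. -/
def eulS (t : R) : R := t ^ 8 + t ^ 6 + 4 * t ^ 4 - 5 * t ^ 2

/-- The coefficient of the family. -/
def famN (t : R) : R := eulA t ^ 4 + eulB t ^ 4

theorem euler_identity (t : R) : eulC t ^ 4 + eulD t ^ 4 = famN t := by
  simp only [famN, eulA, eulB, eulC, eulD]; ring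

theorem factor_identity (t : R) : eulE t * (eulE t + eulS t ^ 2) = famN t := by
  simp only [famN, eulA, eulB, eulE, eulS]; ring

/-- The abscissae. -/
def famX (t : R) : Fin 4 → R := ![-eulA t ^ 2, -eulB t ^ 2, -eulC t ^ 2, -eulE t]

/-- The ordinates. -/
def famY (t : R) : Fin 4 → R :=
  ![eulA t * eulB t ^ 2, eulB t * eulA t ^ 2, eulC t * eulD t ^ 2, eulE t * eulS t]

/-- **The four points lie on the curve.** -/
theorem fam_equation (t : R) (i : Fin 4) : famY t i ^ 2 = famX t i ^ 3 - famN t * famX t i := by
  fin_cases i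
  · exact (twin_equation rfl).1
  · exact (twin_equation rfl).2
  · exact (twin_equation (euler_identity t)).1
  · exact factor_equation (factor_identity t)

theorem map_famN (f : R →+* S) (t : R) : f (famN t) = famN (f t) := by
  simp [famN, eulA, eulB, map_ofNat]

theorem map_famX (f : R →+* S) (t : R) (i : Fin 4) : f (famX t i) = famX (f t) i := by
  fin_cases i <;> simp [famX, eulA, eulB, eulC, eulE, map_ofNat]

theorem map_famY (f : R →+* S) (t : R) (i : Fin 4) : f (famY t i) = famY (f t) i := by
  fin_cases i <;> simp [famY, eulA, eulB, eulC, eulD, eulE, eulS, map_ofNat]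

section Field

variable {F : Type*} [Field F] [CharZero F]

theorem quarticCurve_equation {N x y : F} :
    (quarticCurve N).toAffine.Equation x y ↔ y ^ 2 = x ^ 3 - N * x := by
  rw [Affine.equation_iff]; simp [quarticCurve, sub_eq_add_neg]

theorem isElliptic_quarticCurve {N : F} (hN : N ≠ 0) : (quarticCurve N).IsElliptic :=
  (WeierstrassCurve.isElliptic_iff _).2 (isUnit_iff_ne_zero.2 (by
    rw [quarticCurve_Δ]; exact mul_ne_zero (by norm_num) (pow_ne_zero 3 hN)))

theorem nonsingular_of_eq {N x y : F} (hN : N ≠ 0) (h : y ^ 2 = x ^ 3 - N * x) :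
    (quarticCurve N).toAffine.Nonsingular x y := by
  haveI := isElliptic_quarticCurve hN
  exact Affine.equation_iff_nonsingular.mp (quarticCurve_equation.2 h)

end Field

end FA.QuarticTwins
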